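import Fermat.Agent.S24.LOC
import Fermat.Agent.S24.Comb
import Fermat.Agent.S24.Degree
import Fermat.Agent.S24_helper62.CuspSeries

/-!
# T24 — the fibre of `X₀(N) → X(1)` over `j = ∞` from the cusp embeddings (glue file)

Input: the family `σ : SL₂(ℤ)/Γ₀(N) → (F_N →ₐ[ℚ̄] ℚ̄((t)))` of cusp expansions in the shape
`(C1)`–`(C4)` announced by the AN1-CUSP module:

* `(C1)` every `σ q` sends `j` to `j(t^N)`;
* `(C2)` `σ` is injective;
* `(C3)` the coefficients of `∏ (X - σ q a)` are polynomials in `j(t^N)` for `a ∈ ℚ̄[j(q^d)]`;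
* `(C4)` `σ (g • q) f = (σ q f)(ζ t)` for a primitive `N`-th root of unity `ζ`
  (`g = T` or `g = T⁻¹`, depending on conventions).

Output: the `OrbitData` at `x = j⁻¹` with `e₀ = N`, all hypotheses of the orbit lemma
`LOC.card_fibre_eq_card_orbits`, and hence (given the generic function-field inputs
`Finite (Fibre …)`, `hN`, `hWA`)

  `Nat.card (Fibre ℚ̄ (j⁻¹)) = cuspCount N`,  `∑ e_w = ψ(N)`.
-/

set_option autoImplicit false

noncomputable section

namespace Fermat.Agent.S24_helper76.CuspOrbit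

open ModularCurve HahnSeries AlgebraicCurve MulAction IntermediateField Polynomial
open Fermat.Agent.S24 Fermat.Agent.S28 Fermat.Agent.S28.CuspExp
open scoped MatrixGroups

/-! ### The order valuation on Laurent series -/

section OrderVal

variable (K : Type*) [Field K]

/-- the `t`-adic order on `K((t))` as an `IntVal` -/
def orderIntVal : IntVal K (LaurentSeries K) where
  toFun a := a.order
  map_mul' hf hg := HahnSeries.order_mul hf hg
  map_add' _ _ hfg := HahnSeries.min_order_le_order_add hfg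
  map_algebraMap' c hc := by
    rw [algebraMap_laurentSeries_eq_single]
    exact HahnSeries.order_single hc

@[simp] theorem orderIntVal_apply (a : LaurentSeries K) : orderIntVal K a = a.order := rfl

variable {K}

theorem scaleHom_one_apply (x : LaurentSeries K) : scaleHom K 1 x = x := by
  ext m
  simp

theorem scaleHom_scaleHom (c d : Kˣ) (x : LaurentSeries K) :
    scaleHom K c (scaleHom K d x) = scaleHom K (c * d) x := by
  ext m
  simp only [scaleHom_coeff, mul_zpow, Units.val_mul]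
  ring

/-- a nonzero series fixed by `t ↦ ξ t` has order divisible by the order of `ξ` -/
theorem dvd_order_of_scaleHom_fixed (ξ : Kˣ) {a : LaurentSeries K} (ha : a ≠ 0)
    (hfix : scaleHom K ξ a = a) : (orderOf ξ : ℤ) ∣ a.order := by
  have hc : a.coeff a.order ≠ 0 := fun h => ha (HahnSeries.coeff_order_eq_zero.mp h)
  have h0 := congrArg (fun x => x.coeff a.order) hfix
  simp only [scaleHom_coeff] at h0
  have h1 : ((ξ ^ a.order : Kˣ) : K) = 1 :=
    mul_right_cancel₀ hc (h0.trans (one_mul _).symm)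
  have h2 : ξ ^ a.order = 1 := Units.ext h1
  exact orderOf_dvd_iff_zpow_eq_one.mpr h2

end OrderVal

/-! ### Formal consequences of the equivariance `(C4)` -/

section Equivariance

variable {K : Type*} [Field K] {F : Type*} [Field F] [Algebra K F] {I : Type*}
  {G : Type*} [Group G] [MulAction G I]
  (σ : I → (F →ₐ[K] LaurentSeries K)) (g : G) (ζ : Kˣ)
  (hC4 : ∀ q f, σ (g • q) f = scaleHom K ζ (σ q f))
include hC4

theorem sigma_pow_smul (h : ℕ) (q : I) (f : F) :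
    σ (g ^ h • q) f = scaleHom K (ζ ^ h) (σ q f) := by
  induction h with
  | zero => rw [pow_zero, one_smul, pow_zero, scaleHom_one_apply]
  | succ n ih => rw [pow_succ', mul_smul, hC4, ih, scaleHom_scaleHom, pow_succ']

/-- the orders are constant along the orbits of `g` -/
theorem order_sigma_smul (q : I) (f : F) : (σ (g • q) f).order = (σ q f).order := by
  rw [hC4, order_scaleHom]

/-- `g ^ n` acts trivially if `ζ ^ n = 1` and the family is injective -/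
theorem pow_smul_eq_of_injective (hinj : Function.Injective σ) {n : ℕ} (hn : ζ ^ n = 1)
    (q : I) : g ^ n • q = q := by
  apply hinj
  ext f : 1
  rw [sigma_pow_smul σ g ζ hC4, hn, scaleHom_one_apply]

/-- if `g ^ h` fixes `q` then the order of every expansion at `q` is divisible by the order
of `ζ ^ h` -/
theorem dvd_order_of_pow_smul_eq {h : ℕ} {q : I} (hq : g ^ h • q = q) {f : F} (hf : f ≠ 0) :
    (orderOf (ζ ^ h) : ℤ) ∣ (σ q f).order := by
  refine dvd_order_of_scaleHom_fixed (ζ ^ h) ((map_ne_zero (σ q).toRingHom).mpr hf) ?_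
  rw [← sigma_pow_smul σ g ζ hC4, hq]

end Equivariance

/-! ### The orbit data at the cusp -/

section Cusp

variable (N : ℕ) [NeZero N] (σ : I0 N → (FN N →ₐ[Kbar] LaurentSeries Kbar))

theorem jF_ne_zero : jF N ≠ 0 := fun h =>
  Degree.transcendental_jF N (h ▸ isAlgebraic_zero)

theorem order_qExpand_jqModC (K : Type*) [Field K] :
    (qExpand K N (jqModC K)).order = -(N : ℤ) := by
  rw [← Fermat.Agent.S24_helper62.jCusp_one, Fermat.Agent.S24_helper62.jCusp_order]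

variable {N σ}

/-- the orbit data at `j = ∞`: the valuations `ord_t ∘ σ q`, common value `N` at `j⁻¹` -/
def cuspData (hC1 : ∀ q, σ q (jF N) = qExpand Kbar N (jqModC Kbar)) :
    OrbitData Kbar ((jF N)⁻¹) (I0 N) where
  V q := IntVal.comap (σ q) (orderIntVal Kbar)
  e₀ := N
  he₀ := NeZero.pos N
  hx0 := inv_ne_zero (jF_ne_zero N)
  hVx q := by
    rw [IntVal.comap_apply, map_inv₀, hC1, IntVal.map_inv, orderIntVal_apply,
      order_qExpand_jqModC, neg_neg]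
    have h := order_qExpand_jqModC N Kbar
    intro h0
    rw [h0, HahnSeries.order_zero] at h
    have : (N : ℤ) ≠ 0 := by exact_mod_cast NeZero.ne N
    omega

theorem cuspData_V (hC1 : ∀ q, σ q (jF N) = qExpand Kbar N (jqModC Kbar)) (q : I0 N)
    (f : FN N) : (cuspData hC1).V q f = (σ q f).order := rfl

theorem cuspData_e₀ (hC1 : ∀ q, σ q (jF N) = qExpand Kbar N (jqModC Kbar)) :
    (cuspData hC1).e₀ = N := rfl

end Cusp

/-! ### The hypotheses of the orbit lemma at the cusp -/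

section Main

variable {N : ℕ} [NeZero N] {σ : I0 N → (FN N →ₐ[Kbar] LaurentSeries Kbar)}
  (hC1 : ∀ q, σ q (jF N) = qExpand Kbar N (jqModC Kbar))
  (hC2 : Function.Injective σ)
  (hC3 : ∀ a ∈ Degree.RN N, ∀ m, (∏ q, (X - Polynomial.C (σ q a))).coeff m ∈
    qExpand Kbar N '' (Algebra.adjoin Kbar {jqModC Kbar} : Set (LaurentSeries Kbar)))

include hC1 hC2 hC3 in
/-- `F_N / ℚ̄(j)` is finite (from `(C1)`–`(C3)`) -/
theorem finiteDimensional_cusp : FiniteDimensional Kbar⟮jF N⟯ (FN N) :=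
  Degree.finiteDimensional_of_embeddings hC2 _ hC1 (Degree.htr_of_hsym hC3)

include hC2 hC3 in
/-- the norm hypothesis of the orbit lemma at the cusp -/
theorem hnorm_cusp [FiniteDimensional Kbar⟮jF N⟯ (FN N)] (f : FN N) (hf : f ≠ 0) (i₀ : I0 N) :
    ∑ i, (cuspData hC1).V i f =
      (cuspData hC1).V i₀ (algebraMap Kbar⟮jF N⟯ (FN N) (Algebra.norm Kbar⟮jF N⟯ f)) :=
  hnorm_of_prod Kbar⟮jF N⟯ (orderIntVal Kbar) σ
    (fun f i₀ => Degree.norm_of_embeddings hC2 _ hC1 (Degree.htr_of_hsym hC3) f i₀) f hf i₀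

variable (g : SL(2, ℤ)) (ζ : Kbarˣ) (hζ : IsPrimitiveRoot ζ N)
  (hC4 : ∀ q f, σ (g • q) f = scaleHom Kbar ζ (σ q f))

include hC4 in
/-- the symmetry hypothesis of the orbit lemma at the cusp -/
theorem hsymm_cusp (i : I0 N) (f : FN N) : (cuspData hC1).V (g • i) f = (cuspData hC1).V i f :=
  order_sigma_smul σ g ζ hC4 i f

include hC2 hζ hC4 in
/-- `g ^ N` acts trivially on the cosets -/
theorem hg_cusp (i : I0 N) : g ^ (cuspData hC1).e₀ • i = i :=
  pow_smul_eq_of_injective σ g ζ hC4 hC2 hζ.pow_eq_one i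

include hζ hC4 in
/-- the divisibility hypothesis of the orbit lemma at the cusp -/
theorem hdiv_cusp (i : I0 N) (h : ℕ) (hh : h ∣ (cuspData hC1).e₀) (hi : g ^ h • i = i)
    (f : FN N) (hf : f ≠ 0) : (((cuspData hC1).e₀ / h : ℕ) : ℤ) ∣ (cuspData hC1).V i f := by
  have hh' : h ∣ N := hh
  have h0 : h ≠ 0 := fun h0 => NeZero.ne N (by rw [h0, zero_dvd_iff] at hh'; exact hh')
  have hord : orderOf (ζ ^ h) = N / h := by
    rw [orderOf_pow_of_dvd h0 (by rw [← hζ.eq_orderOf]; exact hh'), ← hζ.eq_orderOf]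
  have := dvd_order_of_pow_smul_eq σ g ζ hC4 hi hf
  rw [hord] at this
  exact this

include hC1 hC2 hC3 hζ hC4 in
/-- **The fibre over `j = ∞`**: places of `F_N` over `∞` correspond to the `g`-orbits on the
coset space. -/
theorem card_fibre_eq_card_orbits_cusp [Finite (Fibre Kbar (jF N)⁻¹)]
    [FiniteDimensional Kbar⟮jF N⟯ (FN N)]
    (hN : ∀ f : FN N, f ≠ 0 → ∀ w₀ : Place Kbar (FN N), 0 < w₀.ord (jF N)⁻¹ →
      w₀.ord (algebraMap Kbar⟮jF N⟯ (FN N) (Algebra.norm Kbar⟮jF N⟯ f)) =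
        w₀.ord (jF N)⁻¹ * ∑ᶠ w : Fibre Kbar (jF N)⁻¹, w.1.ord f)
    (hWA : ∀ w : Fibre Kbar (jF N)⁻¹, ∃ f : FN N, f ≠ 0 ∧ w.1.ord f = 1 ∧
      ∀ w' : Fibre Kbar (jF N)⁻¹, w' ≠ w → w'.1.ord f = 0) :
    Nat.card (Fibre Kbar (jF N)⁻¹) =
      Nat.card (orbitRel.Quotient (Subgroup.zpowers g) (I0 N)) :=
  card_fibre_eq_card_orbits Kbar⟮jF N⟯ (jF N)⁻¹ hN hWA g (cuspData hC1)
    (hnorm_cusp hC1 hC2 hC3) (hsymm_cusp hC1 g ζ hC4) (hg_cusp hC1 hC2 g ζ hζ hC4)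
    (hdiv_cusp hC1 g ζ hζ hC4)

include hC1 hC2 hC3 hζ hC4 in
/-- the sum of the ramification indices over `j = ∞` is `ψ(N)` -/
theorem sum_ord_fibre_cusp [Finite (Fibre Kbar (jF N)⁻¹)]
    [FiniteDimensional Kbar⟮jF N⟯ (FN N)]
    (hN : ∀ f : FN N, f ≠ 0 → ∀ w₀ : Place Kbar (FN N), 0 < w₀.ord (jF N)⁻¹ →
      w₀.ord (algebraMap Kbar⟮jF N⟯ (FN N) (Algebra.norm Kbar⟮jF N⟯ f)) =
        w₀.ord (jF N)⁻¹ * ∑ᶠ w : Fibre Kbar (jF N)⁻¹, w.1.ord f)
    (hWA : ∀ w : Fibre Kbar (jF N)⁻¹, ∃ f : FN N, f ≠ 0 ∧ w.1.ord f = 1 ∧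
      ∀ w' : Fibre Kbar (jF N)⁻¹, w' ≠ w → w'.1.ord f = 0) :
    ∑ᶠ w : Fibre Kbar (jF N)⁻¹, w.1.ord (jF N)⁻¹ = Fintype.card (I0 N) :=
  sum_ord_fibre_eq_card Kbar⟮jF N⟯ (jF N)⁻¹ hN hWA g (cuspData hC1)
    (hnorm_cusp hC1 hC2 hC3) (hsymm_cusp hC1 g ζ hC4) (hg_cusp hC1 hC2 g ζ hζ hC4)
    (hdiv_cusp hC1 g ζ hζ hC4)

end Main

/-! ### The cusp count -/

section Count

variable {N : ℕ} [NeZero N] {σ : I0 N → (FN N →ₐ[Kbar] LaurentSeries Kbar)}

/-- **Number of places over `j = ∞`** (equivariance for `T`). -/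
theorem card_fibre_infty_eq_cuspCount
    (hC1 : ∀ q, σ q (jF N) = qExpand Kbar N (jqModC Kbar))
    (hC2 : Function.Injective σ)
    (hC3 : ∀ a ∈ Degree.RN N, ∀ m, (∏ q, (X - Polynomial.C (σ q a))).coeff m ∈
      qExpand Kbar N '' (Algebra.adjoin Kbar {jqModC Kbar} : Set (LaurentSeries Kbar)))
    (ζ : Kbarˣ) (hζ : IsPrimitiveRoot ζ N)
    (hC4 : ∀ q f, σ (ModularGroup.T • q) f = scaleHom Kbar ζ (σ q f))
    [Finite (Fibre Kbar (jF N)⁻¹)] [FiniteDimensional Kbar⟮jF N⟯ (FN N)]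
    (hN : ∀ f : FN N, f ≠ 0 → ∀ w₀ : Place Kbar (FN N), 0 < w₀.ord (jF N)⁻¹ →
      w₀.ord (algebraMap Kbar⟮jF N⟯ (FN N) (Algebra.norm Kbar⟮jF N⟯ f)) =
        w₀.ord (jF N)⁻¹ * ∑ᶠ w : Fibre Kbar (jF N)⁻¹, w.1.ord f)
    (hWA : ∀ w : Fibre Kbar (jF N)⁻¹, ∃ f : FN N, f ≠ 0 ∧ w.1.ord f = 1 ∧
      ∀ w' : Fibre Kbar (jF N)⁻¹, w' ≠ w → w'.1.ord f = 0) :
    Nat.card (Fibre Kbar (jF N)⁻¹) = cuspCount N := by
  rw [card_fibre_eq_card_orbits_cusp hC1 hC2 hC3 ModularGroup.T ζ hζ hC4 hN hWA]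
  exact Fermat.Agent.S20_helper11.card_orbits_T N

/-- **Number of places over `j = ∞`** (equivariance for `T⁻¹`). -/
theorem card_fibre_infty_eq_cuspCount'
    (hC1 : ∀ q, σ q (jF N) = qExpand Kbar N (jqModC Kbar))
    (hC2 : Function.Injective σ)
    (hC3 : ∀ a ∈ Degree.RN N, ∀ m, (∏ q, (X - Polynomial.C (σ q a))).coeff m ∈
      qExpand Kbar N '' (Algebra.adjoin Kbar {jqModC Kbar} : Set (LaurentSeries Kbar)))
    (ζ : Kbarˣ) (hζ : IsPrimitiveRoot ζ N)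
    (hC4 : ∀ q f, σ (ModularGroup.T⁻¹ • q) f = scaleHom Kbar ζ (σ q f))
    [Finite (Fibre Kbar (jF N)⁻¹)] [FiniteDimensional Kbar⟮jF N⟯ (FN N)]
    (hN : ∀ f : FN N, f ≠ 0 → ∀ w₀ : Place Kbar (FN N), 0 < w₀.ord (jF N)⁻¹ →
      w₀.ord (algebraMap Kbar⟮jF N⟯ (FN N) (Algebra.norm Kbar⟮jF N⟯ f)) =
        w₀.ord (jF N)⁻¹ * ∑ᶠ w : Fibre Kbar (jF N)⁻¹, w.1.ord f)
    (hWA : ∀ w : Fibre Kbar (jF N)⁻¹, ∃ f : FN N, f ≠ 0 ∧ w.1.ord f = 1 ∧
      ∀ w' : Fibre Kbar (jF N)⁻¹, w' ≠ w → w'.1.ord f = 0) :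
    Nat.card (Fibre Kbar (jF N)⁻¹) = cuspCount N := by
  rw [card_fibre_eq_card_orbits_cusp hC1 hC2 hC3 ModularGroup.T⁻¹ ζ hζ hC4 hN hWA,
    Subgroup.zpowers_inv]
  exact Fermat.Agent.S20_helper11.card_orbits_T N

/-- the fibre over `∞` in the `placesOverInfty` language -/
theorem card_placesOverInfty_eq_card_fibre {K F : Type*} [Field K] [Field F] [Algebra K F]
    (x : F) : Nat.card (placesOverInfty K x) = Nat.card (Fibre K x⁻¹) := by
  refine Nat.card_congr (Equiv.subtypeEquivRight fun v => ?_)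
  show v.ord x < 0 ↔ 0 < v.ord x⁻¹
  rw [Place.ord_inv]
  omega

/-- **Number of poles of `j`** in the `placesOverInfty` language. -/
theorem card_placesOverInfty_eq_cuspCount
    (hC1 : ∀ q, σ q (jF N) = qExpand Kbar N (jqModC Kbar))
    (hC2 : Function.Injective σ)
    (hC3 : ∀ a ∈ Degree.RN N, ∀ m, (∏ q, (X - Polynomial.C (σ q a))).coeff m ∈
      qExpand Kbar N '' (Algebra.adjoin Kbar {jqModC Kbar} : Set (LaurentSeries Kbar)))
    (ζ : Kbarˣ) (hζ : IsPrimitiveRoot ζ N)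
    (hC4 : (∀ q f, σ (ModularGroup.T • q) f = scaleHom Kbar ζ (σ q f)) ∨
      (∀ q f, σ (ModularGroup.T⁻¹ • q) f = scaleHom Kbar ζ (σ q f)))
    [Finite (Fibre Kbar (jF N)⁻¹)] [FiniteDimensional Kbar⟮jF N⟯ (FN N)]
    (hN : ∀ f : FN N, f ≠ 0 → ∀ w₀ : Place Kbar (FN N), 0 < w₀.ord (jF N)⁻¹ →
      w₀.ord (algebraMap Kbar⟮jF N⟯ (FN N) (Algebra.norm Kbar⟮jF N⟯ f)) =
        w₀.ord (jF N)⁻¹ * ∑ᶠ w : Fibre Kbar (jF N)⁻¹, w.1.ord f)
    (hWA : ∀ w : Fibre Kbar (jF N)⁻¹, ∃ f : FN N, f ≠ 0 ∧ w.1.ord f = 1 ∧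
      ∀ w' : Fibre Kbar (jF N)⁻¹, w' ≠ w → w'.1.ord f = 0) :
    Nat.card (placesOverInfty Kbar (jF N)) = cuspCount N := by
  rw [card_placesOverInfty_eq_card_fibre]
  rcases hC4 with h | h
  · exact card_fibre_infty_eq_cuspCount hC1 hC2 hC3 ζ hζ h hN hWA
  · exact card_fibre_infty_eq_cuspCount' hC1 hC2 hC3 ζ hζ h hN hWA

end Count

end Fermat.Agent.S24_helper76.CuspOrbit
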