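import Fermat.Agent.S24_helper76.CuspCount
import Fermat.Agent.S24.FinalD

/-!
# T24 — the fibre input at `j = ∞` in the shape of `FinalD.genus_eq_genusFormula`
-/

set_option autoImplicit false

noncomputable section

namespace Fermat.Agent.S24.Cusp

open ModularCurve AlgebraicCurve IntermediateField
open Fermat.Agent.S24 Fermat.Agent.S24_helper62 Fermat.Agent.S24_helper76.CuspOrbit
open scoped MatrixGroups

/-- `F_N / ℚ̄(j)` is finite -/
theorem finiteDimensional_jF (N : ℕ) [NeZero N] : FiniteDimensional Kbar⟮jF N⟯ (FN N) :=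
  (m9 N).2.1

/-- `j` is a separating generator of `F_N / ℚ̄` -/
theorem isGen_jF (N : ℕ) [NeZero N] : IsGen Kbar (jF N) :=
  ⟨(m9 N).1, (m9 N).2.1⟩

/-- the degree `[F_N : ℚ̄(j)] = ψ(N)` -/
theorem finrank_jF (N : ℕ) [NeZero N] :
    Module.finrank Kbar⟮jF N⟯ (FN N) = dedekindPsi N := (m9 N).2.2

/-- **the analytic input of the orbit lemma at `j = ∞`** (local monodromy `T`, `e₀ = N`). -/
theorem fibreInput_infty (N : ℕ) [NeZero N] :
    FinalD.FibreInput Kbar⟮jF N⟯ (jF N)⁻¹ (I0 N) ModularGroup.T := by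
  have : FiniteDimensional Kbar⟮jF N⟯ (FN N) := finiteDimensional_jF N
  exact ⟨⟨cuspData (cuspSigma_jF N),
    hnorm_cusp (cuspSigma_jF N) (cuspSigma_injective N) (cuspSigma_sym N),
    hsymm_cusp (cuspSigma_jF N) ModularGroup.T (zetaBar N)⁻¹ (cuspSigma_T_smul_apply N),
    hg_cusp (cuspSigma_jF N) (cuspSigma_injective N) ModularGroup.T (zetaBar N)⁻¹
      (zetaBar_isPrimitiveRoot N).inv (cuspSigma_T_smul_apply N),
    hdiv_cusp (cuspSigma_jF N) ModularGroup.T (zetaBar N)⁻¹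
      (zetaBar_isPrimitiveRoot N).inv (cuspSigma_T_smul_apply N)⟩⟩

end Fermat.Agent.S24.Cusp
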