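import Fermat.Agent.S24_helper76.CuspOrbit
import Fermat.Agent.S24_helper62.CuspEmb
import Fermat.Agent.S24.Norm

/-!
# T24 — the number of places of `F_N` over `j = ∞` (unconditional)

`hinfty N : Nat.card (Fibre ℚ̄ (j⁻¹)) = numOrbits (permOf N T)` and `= cuspCount N`,
from the cusp embeddings `cuspSigma` (AN1-CUSP), the orbit lemma (LOC) and the norm package
(NORM).  This is the hypothesis `hinfty` of `FinalB.genus_eq_genusFormula_of_counts`.
-/

set_option autoImplicit false

noncomputable section

namespace Fermat.Agent.S24_helper76.CuspCount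

open ModularCurve AlgebraicCurve MulAction IntermediateField
open Fermat.Agent.S24 Fermat.Agent.S24_helper62 Fermat.Agent.S24_helper76.CuspOrbit
open scoped MatrixGroups

variable (N : ℕ) [NeZero N]

/-- `F_N / ℚ̄(j)` is finite -/
theorem finiteDimensional_FN : FiniteDimensional Kbar⟮jF N⟯ (FN N) := (m9 N).2.1

/-- the fibre of `j⁻¹` corresponds to the `T`-orbits on the coset space -/
theorem card_fibre_infty_eq_card_orbits :
    Nat.card (Fibre Kbar (jF N)⁻¹) =
      Nat.card (orbitRel.Quotient (Subgroup.zpowers ModularGroup.T) (I0 N)) := by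
  have : FiniteDimensional Kbar⟮jF N⟯ (FN N) := finiteDimensional_FN N
  have hk : Kbar⟮jF N⟯ = Kbar⟮(jF N)⁻¹⟯ := (Norm.adjoin_simple_inv (jF N)).symm
  have : FiniteDimensional Kbar⟮(jF N)⁻¹⟯ (FN N) := hk ▸ finiteDimensional_FN N
  have hx : Transcendental Kbar (jF N)⁻¹ := Norm.transcendental_inv (m9 N).1
  obtain ⟨hfin, hN, hWA⟩ := Norm.fibre_package (jF N)⁻¹ hx Kbar⟮jF N⟯ hk
  have := hfin
  exact card_fibre_eq_card_orbits_cusp (cuspSigma_jF N) (cuspSigma_injective N)
    (cuspSigma_sym N) ModularGroup.T (zetaBar N)⁻¹ (zetaBar_isPrimitiveRoot N).inv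
    (cuspSigma_T_smul_apply N) hN hWA

/-- **`hinfty`**: the number of places of `F_N` over `j = ∞` is the number of `T`-orbits on
`SL₂(ℤ)/Γ₀(N)` (the shape consumed by `FinalB.genus_eq_genusFormula_of_counts`). -/
theorem hinfty : Nat.card (Fibre Kbar (jF N)⁻¹) = numOrbits (permOf N ModularGroup.T) := by
  rw [card_fibre_infty_eq_card_orbits, Comb.numOrbits_permOf]

/-- the number of places of `F_N` over `j = ∞` is the number of cusps of `X₀(N)` -/
theorem card_fibre_infty_eq_cuspCount : Nat.card (Fibre Kbar (jF N)⁻¹) = cuspCount N := by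
  rw [hinfty, Comb.numOrbits_T]

/-- the same in the `placesOverInfty` language -/
theorem card_placesOverInfty_eq_cuspCount :
    Nat.card (placesOverInfty Kbar (jF N)) = cuspCount N := by
  rw [card_placesOverInfty_eq_card_fibre, card_fibre_infty_eq_cuspCount]

end Fermat.Agent.S24_helper76.CuspCount
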