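import Mathlib

set_option autoImplicit false

/-!
# Degree, norm and trace from a finite family of distinct embeddings (S24, module AN2-ALG)

`L ⊆ F` fields of characteristic zero, `Ω` an `L`-field, `σ : ι → (F →ₐ[L] Ω)` a finite family of
pairwise distinct `L`-embeddings such that the "trace" `∑ i, σ i s` lies in `L` for all `s` in an
`L`-spanning set of `F`.  Then `F / L` is finite of degree `card ι`, and norm and trace of `F / L`
are the product, resp. the sum, over the family.
-/

namespace Fermat.Agent.S24_helper76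

open Polynomial

section Newton

variable {Ω : Type*} [Field Ω] [CharZero Ω] {ι : Type*} [Fintype ι]

/-- If all power sums of a finite family lie in a subfield (characteristic zero), so do all
elementary symmetric functions. -/
theorem esymm_mem_of_psum_mem (K₀ : Subfield Ω) (a : ι → Ω)
    (h : ∀ m : ℕ, ∑ i, a i ^ m ∈ K₀) (k : ℕ) :
    MvPolynomial.eval a (MvPolynomial.esymm ι Ω k) ∈ K₀ := by
  induction k using Nat.strong_induction_on with
  | _ k ih =>
    rcases Nat.eq_zero_or_pos k with rfl | hk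
    · simp
    · have hN := congrArg (MvPolynomial.eval a) (MvPolynomial.mul_esymm_eq_sum ι Ω k)
      simp only [map_mul, map_natCast, map_pow, map_neg, map_one, map_sum] at hN
      have hk0 : (k : Ω) ≠ 0 := Nat.cast_ne_zero.mpr hk.ne'
      have hmem : (k : Ω) * MvPolynomial.eval a (MvPolynomial.esymm ι Ω k) ∈ K₀ := by
        rw [hN]
        refine K₀.mul_mem (K₀.pow_mem (K₀.neg_mem K₀.one_mem) _) (K₀.sum_mem ?_)
        intro p hp
        rw [Finset.mem_filter] at hp
        refine K₀.mul_mem (K₀.mul_mem (K₀.pow_mem (K₀.neg_mem K₀.one_mem) _) (ih _ hp.2)) ?_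
        have : MvPolynomial.eval a (MvPolynomial.psum ι Ω p.2) = ∑ i, a i ^ p.2 := by
          simp [MvPolynomial.psum]
        rw [this]
        exact h _
      have := K₀.mul_mem (K₀.inv_mem (natCast_mem K₀ k)) hmem
      rwa [inv_mul_cancel_left₀ hk0] at this

/-- If all power sums of a finite family lie in a subfield (characteristic zero), then
`∏ i, (X - C (a i))` has coefficients in that subfield. -/
theorem prod_X_sub_C_coeff_mem (K₀ : Subfield Ω) (a : ι → Ω)
    (h : ∀ m : ℕ, ∑ i, a i ^ m ∈ K₀) (k : ℕ) :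
    (∏ i, (X - C (a i))).coeff k ∈ K₀ := by
  have hneg : ∀ m : ℕ, ∑ i, (-a i) ^ m ∈ K₀ := by
    intro m
    have : ∑ i, (-a i) ^ m = (-1) ^ m * ∑ i, a i ^ m := by
      rw [Finset.mul_sum]
      refine Finset.sum_congr rfl fun i _ => ?_
      rw [neg_pow]
    rw [this]
    exact K₀.mul_mem (K₀.pow_mem (K₀.neg_mem K₀.one_mem) _) (h m)
  have key := congrArg (Polynomial.map (MvPolynomial.eval fun i => -a i))
    (MvPolynomial.prod_C_add_X_eq_sum_esymm Ω ι)
  simp only [Polynomial.map_prod, Polynomial.map_add, Polynomial.map_X, Polynomial.map_C,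
    MvPolynomial.eval_X, Polynomial.map_sum, Polynomial.map_mul, Polynomial.map_pow] at key
  have hprod : ∏ i, (X - C (a i)) = ∏ i, (X + C (-a i)) := by
    refine Finset.prod_congr rfl fun i _ => ?_
    rw [map_neg, sub_eq_add_neg]
  rw [hprod, key, Polynomial.finsetSum_coeff]
  refine K₀.sum_mem fun j _ => ?_
  rw [Polynomial.coeff_C_mul, Polynomial.coeff_X_pow]
  refine K₀.mul_mem (esymm_mem_of_psum_mem K₀ _ hneg j) ?_
  split_ifs
  · exact K₀.one_mem
  · exact K₀.zero_mem

end Newton

section Bounded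

open IntermediateField

variable {L F : Type*} [Field L] [Field F] [Algebra L F] [CharZero L]

/-- A field extension in characteristic zero all of whose elements are integral of degree at most
`n` is finite of degree at most `n`. -/
theorem finiteDimensional_of_natDegree_minpoly_le (n : ℕ)
    (h : ∀ x : F, IsIntegral L x ∧ (minpoly L x).natDegree ≤ n) :
    FiniteDimensional L F ∧ Module.finrank L F ≤ n := by
  have halg : Algebra.IsAlgebraic L F := ⟨fun x => (h x).1.isAlgebraic⟩
  have hsep : Algebra.IsSeparable L F := inferInstance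
  -- an element of maximal degree
  obtain ⟨θ, hθ⟩ : ∃ θ : F, ∀ x : F, (minpoly L x).natDegree ≤ (minpoly L θ).natDegree := by
    classical
    let P : ℕ → Prop := fun d => ∃ x : F, (minpoly L x).natDegree = d
    have hP : P (Nat.findGreatest P n) :=
      Nat.findGreatest_spec (P := P) (h 0).2 ⟨0, rfl⟩
    obtain ⟨θ, hθ⟩ := hP
    refine ⟨θ, fun x => ?_⟩
    rw [hθ]
    exact Nat.le_findGreatest (h x).2 ⟨x, rfl⟩
  have htop : L⟮θ⟯ = ⊤ := by
    rw [eq_top_iff]
    intro x _
    obtain ⟨γ, hγ⟩ := Field.primitive_element_inf_aux L θ x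
    have hle : L⟮θ⟯ ≤ L⟮γ⟯ := by
      rw [← hγ]
      exact adjoin.mono L _ _ (by simp)
    have hfin : FiniteDimensional L L⟮γ⟯ := adjoin.finiteDimensional (h γ).1
    have heq : L⟮θ⟯ = L⟮γ⟯ := by
      refine eq_of_le_of_finrank_le hle ?_
      rw [adjoin.finrank (h γ).1, adjoin.finrank (h θ).1]
      exact hθ γ
    rw [heq, ← hγ]
    exact subset_adjoin L _ (by simp)
  have hfd : FiniteDimensional L F :=
    Field.FiniteDimensional.of_exists_primitive_element L F ⟨θ, htop⟩
  refine ⟨hfd, ?_⟩
  have : Module.finrank L F = Module.finrank L L⟮θ⟯ := by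
    rw [htop]
    exact (IntermediateField.finrank_top').symm
  rw [this, adjoin.finrank (h θ).1]
  exact (h θ).2

end Bounded

section Main

variable {L F Ω : Type*} [Field L] [Field F] [Field Ω] [Algebra L F] [Algebra L Ω]
variable {ι : Type*} [Fintype ι] (σ : ι → F →ₐ[L] Ω)

/-- the `L`-linear "trace" map `x ↦ ∑ i, σ i x` -/
noncomputable def trSum : F →ₗ[L] Ω := ∑ i, (σ i).toLinearMap

theorem trSum_apply (x : F) : trSum σ x = ∑ i, σ i x := by
  simp [trSum, LinearMap.sum_apply]

/-- If `∑ i, σ i s ∈ L` for all `s ∈ S`, then the same holds on the `L`-span of `S`. -/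
theorem sum_mem_range_of_mem_span (S : Set F)
    (htr : ∀ s ∈ S, ∃ l : L, algebraMap L Ω l = ∑ i, σ i s) {x : F}
    (hx : x ∈ Submodule.span L S) :
    ∃ l : L, algebraMap L Ω l = ∑ i, σ i x := by
  have hle : Submodule.span L S ≤
      (LinearMap.range (Algebra.linearMap L Ω)).comap (trSum σ) := by
    rw [Submodule.span_le]
    intro s hs
    obtain ⟨l, hl⟩ := htr s hs
    exact ⟨l, by rw [trSum_apply, ← hl]; rfl⟩
  obtain ⟨l, hl⟩ := hle hx
  exact ⟨l, by rw [← trSum_apply]; exact hl⟩

/-- If `∑ i, σ i s ∈ L` for all `s` in an `L`-spanning set, then for all elements of `F`. -/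
theorem sum_mem_range (S : Set F) (hS : Submodule.span L S = ⊤)
    (htr : ∀ s ∈ S, ∃ l : L, algebraMap L Ω l = ∑ i, σ i s) (x : F) :
    ∃ l : L, algebraMap L Ω l = ∑ i, σ i x :=
  sum_mem_range_of_mem_span σ S htr (hS ▸ Submodule.mem_top)

theorem poly_props [Nonempty ι] {x : F} {p : L[X]}
    (hp : p.map (algebraMap L Ω) = ∏ i, (X - C (σ i x))) :
    p.Monic ∧ p.natDegree = Fintype.card ι ∧ aeval x p = 0 := by
  have hmonic' : (∏ i, (X - C (σ i x))).Monic :=
    monic_prod_of_monic _ _ fun i _ => monic_X_sub_C _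
  have hinj := (algebraMap L Ω).injective
  have hmonic : p.Monic := Polynomial.monic_of_injective hinj (by rw [hp]; exact hmonic')
  refine ⟨hmonic, ?_, ?_⟩
  · rw [← Polynomial.natDegree_map (algebraMap L Ω) (p := p), hp,
      natDegree_prod_of_monic _ _ fun i _ => monic_X_sub_C _]
    simp
  · obtain ⟨i⟩ := ‹Nonempty ι›
    have h0 : (σ i) (aeval x p) = 0 := by
      rw [← Polynomial.aeval_algHom_apply, aeval_def, ← eval_map, hp, eval_prod]
      exact Finset.prod_eq_zero (Finset.mem_univ i) (by simp)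
    exact (map_eq_zero_iff (σ i) (σ i).toRingHom.injective).mp h0

variable [CharZero L]

/-- If all "power sums" `∑ i, σ i (x ^ m)` lie in `L`, then the "characteristic polynomial"
`∏ i, (X - σ i x)` descends to `L[X]`. -/
theorem exists_poly (x : F) (hx : ∀ m : ℕ, ∃ l : L, algebraMap L Ω l = ∑ i, σ i (x ^ m)) :
    ∃ p : L[X], p.map (algebraMap L Ω) = ∏ i, (X - C (σ i x)) := by
  have : CharZero Ω := charZero_of_injective_algebraMap (algebraMap L Ω).injective
  have hmem : ∀ k, (∏ i, (X - C (σ i x))).coeff k ∈ (algebraMap L Ω).fieldRange := by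
    apply prod_X_sub_C_coeff_mem
    intro m
    obtain ⟨l, hl⟩ := hx m
    exact ⟨l, by rw [hl]; simp [map_pow]⟩
  have h2 : ∏ i, (X - C (σ i x)) ∈ Polynomial.lifts (algebraMap L Ω) := by
    rw [Polynomial.lifts_iff_coeff_lifts]
    intro k
    exact hmem k
  exact (Polynomial.mem_lifts _).mp h2

/-- **Main theorem.** A finite family of pairwise distinct `L`-embeddings `σ i : F → Ω` whose
"trace" `∑ i, σ i s` lies in `L` for all `s` in an `L`-spanning set of `F` is the family of all
embeddings: `F / L` is finite of degree `card ι`, and norm, trace and characteristic polynomial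
are given by the family. -/
theorem finrank_norm_trace_of_embeddings [Nonempty ι] (hinj : Function.Injective σ)
    (S : Set F) (hS : Submodule.span L S = ⊤)
    (htr : ∀ s ∈ S, ∃ l : L, algebraMap L Ω l = ∑ i, σ i s) :
    FiniteDimensional L F ∧ Module.finrank L F = Fintype.card ι ∧
      (∀ f : F, algebraMap L Ω (Algebra.norm L f) = ∏ i, σ i f) ∧
      (∀ f : F, algebraMap L Ω (Algebra.trace L F f) = ∑ i, σ i f) ∧
      (∀ f : F, ∃ p : L[X], p.Monic ∧ p.natDegree = Fintype.card ι ∧ aeval f p = 0 ∧
        p.map (algebraMap L Ω) = ∏ i, (X - C (σ i f))) := by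
  have hall := sum_mem_range σ S hS htr
  have hpoly : ∀ f : F, ∃ p : L[X], p.Monic ∧ p.natDegree = Fintype.card ι ∧ aeval f p = 0 ∧
      p.map (algebraMap L Ω) = ∏ i, (X - C (σ i f)) := by
    intro f
    obtain ⟨p, hp⟩ := exists_poly σ f fun m => hall (f ^ m)
    obtain ⟨h1, h2, h3⟩ := poly_props σ hp
    exact ⟨p, h1, h2, h3, hp⟩
  have hbound : ∀ x : F, IsIntegral L x ∧ (minpoly L x).natDegree ≤ Fintype.card ι := by
    intro x
    obtain ⟨p, h1, h2, h3, -⟩ := hpoly x
    refine ⟨⟨p, h1, h3⟩, ?_⟩
    rw [← h2]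
    exact natDegree_le_natDegree (minpoly.min L x h1 h3)
  obtain ⟨hfd, hle⟩ := finiteDimensional_of_natDegree_minpoly_le _ hbound
  have hsep : Algebra.IsSeparable L F := inferInstance
  -- pass to an algebraic closure of `Ω`
  let E := AlgebraicClosure Ω
  let ψ : ι → (F →ₐ[L] E) := fun i => (IsScalarTower.toAlgHom L Ω E).comp (σ i)
  have hψinj : Function.Injective ψ := by
    intro i j hij
    apply hinj
    ext x
    have := DFunLike.congr_fun hij x
    exact (algebraMap Ω E).injective this
  have hcard : Fintype.card (F →ₐ[L] E) = Module.finrank L F := AlgHom.card L F E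
  have hge : Fintype.card ι ≤ Module.finrank L F := by
    rw [← hcard]
    exact Fintype.card_le_of_injective ψ hψinj
  have heq : Module.finrank L F = Fintype.card ι := le_antisymm hle hge
  have hbij : Function.Bijective ψ := by
    rw [Fintype.bijective_iff_injective_and_card]
    exact ⟨hψinj, by rw [hcard, heq]⟩
  refine ⟨hfd, heq, ?_, ?_, hpoly⟩
  · intro f
    apply (algebraMap Ω E).injective
    rw [← IsScalarTower.algebraMap_apply, Algebra.norm_eq_prod_embeddings L E, map_prod]
    exact (Fintype.prod_bijective ψ hbij _ _ fun i => rfl).symm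
  · intro f
    apply (algebraMap Ω E).injective
    rw [← IsScalarTower.algebraMap_apply, trace_eq_sum_embeddings E, map_sum]
    exact (Fintype.sum_bijective ψ hbij _ _ fun i => rfl).symm

/-- Variant of the main theorem: the trace hypothesis is only required on a multiplicatively
closed set `M` generating `F` as a field over `L`; algebraicity of `F / L` is a conclusion. -/
theorem finrank_norm_trace_of_embeddings_submonoid [Nonempty ι] (hinj : Function.Injective σ)
    (M : Submonoid F) (hM : IntermediateField.adjoin L (M : Set F) = ⊤)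
    (htr : ∀ s ∈ M, ∃ l : L, algebraMap L Ω l = ∑ i, σ i s) :
    FiniteDimensional L F ∧ Module.finrank L F = Fintype.card ι ∧
      (∀ f : F, algebraMap L Ω (Algebra.norm L f) = ∏ i, σ i f) ∧
      (∀ f : F, algebraMap L Ω (Algebra.trace L F f) = ∑ i, σ i f) ∧
      (∀ f : F, ∃ p : L[X], p.Monic ∧ p.natDegree = Fintype.card ι ∧ aeval f p = 0 ∧
        p.map (algebraMap L Ω) = ∏ i, (X - C (σ i f))) := by
  have hspan : Subalgebra.toSubmodule (Algebra.adjoin L (M : Set F)) =
      Submodule.span L (M : Set F) := by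
    rw [Algebra.adjoin_eq_span, Submonoid.closure_eq]
  -- every element of the `L`-algebra generated by `M` is algebraic over `L`
  have halg : ∀ x ∈ Algebra.adjoin L (M : Set F), IsAlgebraic L x := by
    intro x hx
    have hpow : ∀ m : ℕ, ∃ l : L, algebraMap L Ω l = ∑ i, σ i (x ^ m) := by
      intro m
      have hxm : x ^ m ∈ Algebra.adjoin L (M : Set F) := Subalgebra.pow_mem _ hx m
      refine sum_mem_range_of_mem_span σ (M : Set F) htr ?_
      rw [← hspan]
      exact hxm
    obtain ⟨p, hp⟩ := exists_poly σ x hpow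
    obtain ⟨h1, -, h3⟩ := poly_props σ hp
    exact ⟨p, h1.ne_zero, h3⟩
  have htop : Algebra.adjoin L (M : Set F) = ⊤ := by
    rw [← IntermediateField.adjoin_toSubalgebra_of_isAlgebraic
      (fun x hx => halg x (Algebra.subset_adjoin hx)), hM, IntermediateField.top_toSubalgebra]
  have hS : Submodule.span L (M : Set F) = ⊤ := by
    rw [← hspan, htop, Algebra.top_toSubmodule]
  exact finrank_norm_trace_of_embeddings σ hinj (M : Set F) hS htr

end Main

section Wrapper

open IntermediateField

variable {K F Ω : Type*} [Field K] [Field F] [Field Ω] [Algebra K F] [Algebra K Ω]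
variable {ι : Type*} [Fintype ι] [Nonempty ι]

/-- `K`-algebra homomorphisms `F → Ω` that agree at `j` agree on `K⟮j⟯`. -/
theorem algHom_eq_on_adjoin_simple (j : F) (τ₁ τ₂ : F →ₐ[K] Ω) (h : τ₁ j = τ₂ j) (l : K⟮j⟯) :
    τ₁ (l : F) = τ₂ (l : F) := by
  have : τ₁.comp (K⟮j⟯.val) = τ₂.comp (K⟮j⟯.val) := by
    apply adjoin_algHom_ext
    intro x hx
    rw [Set.mem_singleton_iff] at hx
    subst hx
    exact h
  exact DFunLike.congr_fun this l

variable [CharZero K]

/-- **Consumer form.** `K`-algebra embeddings `τ i : F → Ω` which all send `j` to the same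
element `J`, pairwise distinct, such that `∑ i, τ i s` is a polynomial in `J` for all `s` in a
multiplicatively closed set `M` which together with `j` generates the field `F` over `K`.
Then `[F : K(j)] = card ι` and norm/trace from `F` to `K(j)` are the product/sum over the
family. -/
theorem finrank_norm_trace_of_algHoms (j : F) (τ : ι → F →ₐ[K] Ω) (hinj : Function.Injective τ)
    (J : Ω) (hJ : ∀ i, τ i j = J) (M : Submonoid F)
    (hM : IntermediateField.adjoin K⟮j⟯ (M : Set F) = ⊤)
    (htr : ∀ s ∈ M, ∃ P : K[X], aeval J P = ∑ i, τ i s) :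
    FiniteDimensional K⟮j⟯ F ∧ Module.finrank K⟮j⟯ F = Fintype.card ι ∧
      (∀ (f : F) (i₀ : ι), τ i₀ ((Algebra.norm K⟮j⟯ f : K⟮j⟯) : F) = ∏ i, τ i f) ∧
      (∀ (f : F) (i₀ : ι), τ i₀ ((Algebra.trace K⟮j⟯ F f : K⟮j⟯) : F) = ∑ i, τ i f) := by
  classical
  let i₁ : ι := Classical.arbitrary ι
  let algΩ : Algebra K⟮j⟯ Ω := ((τ i₁).comp (K⟮j⟯.val)).toRingHom.toAlgebra
  have halg : ∀ l : K⟮j⟯, algebraMap K⟮j⟯ Ω l = τ i₁ (l : F) := fun l => rfl
  have hagree : ∀ (i : ι) (l : K⟮j⟯), τ i (l : F) = τ i₁ (l : F) := fun i l =>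
    algHom_eq_on_adjoin_simple j _ _ (by rw [hJ, hJ]) l
  let σ : ι → F →ₐ[K⟮j⟯] Ω := fun i =>
    { (τ i).toRingHom with
      commutes' := fun l => by
        show τ i ((l : F)) = algebraMap K⟮j⟯ Ω l
        rw [halg, hagree] }
  have hσ : ∀ i x, σ i x = τ i x := fun i x => rfl
  have hσinj : Function.Injective σ := by
    intro a b hab
    apply hinj
    ext x
    have := DFunLike.congr_fun hab x
    rwa [hσ, hσ] at this
  have htr' : ∀ s ∈ M, ∃ l : K⟮j⟯, algebraMap K⟮j⟯ Ω l = ∑ i, σ i s := by
    intro s hs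
    obtain ⟨P, hP⟩ := htr s hs
    refine ⟨aeval (AdjoinSimple.gen K j) P, ?_⟩
    rw [halg]
    have h1 : ((aeval (AdjoinSimple.gen K j) P : K⟮j⟯) : F) = aeval j P := by
      have := Polynomial.aeval_algHom_apply (K⟮j⟯.val) (AdjoinSimple.gen K j) P
      rw [IntermediateField.val_mk] at this
      exact this.symm
    rw [h1, ← Polynomial.aeval_algHom_apply, hJ, hP]
    rfl
  obtain ⟨h1, h2, h3, h4, -⟩ :=
    finrank_norm_trace_of_embeddings_submonoid σ hσinj M hM htr'
  refine ⟨h1, h2, fun f i₀ => ?_, fun f i₀ => ?_⟩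
  · rw [hagree, ← halg, h3]; rfl
  · rw [hagree, ← halg, h4]; rfl

end Wrapper

end Fermat.Agent.S24_helper76
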